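import Fermat.Agent.Feldman.NormForm
import Mathlib.RingTheory.Polynomial.IntegralNormalization

/-!
# Thue equations with a polynomial bound, and Feldman's improvement of Liouville

A polynomial bound `|q| ≤ C |F (p, q)| ^ T` and `|F (p, q)| ≤ L q ^ d |α - p / q|` give
`|α - p / q| ≥ c / q ^ (d - 1 / T)`.
-/

set_option autoImplicit false

noncomputable section

namespace FA.Feldman

open Polynomial NumberField Module

/-- The monic case. -/
theorem monic_form_bound {g : ℤ[X]} (hg : g.Monic) (hirr : Irreducible g) (hn : 3 ≤ g.natDegree) :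
    ∃ C T : ℕ, ∀ x y m : ℤ, m ≠ 0 → FA.Thue.form g x y = m →
      x.natAbs ≤ C * m.natAbs ^ T ∧ y.natAbs ≤ C * m.natAbs ^ T := by
  set gQ := g.map (Int.castRingHom ℚ) with hgQ
  have : Fact (Irreducible gQ) := ⟨hg.irreducible_iff_irreducible_map_fraction_map.1 hirr⟩
  have hg0 : gQ ≠ 0 := (hg.map _).ne_zero
  have : FiniteDimensional ℚ (AdjoinRoot gQ) := (AdjoinRoot.powerBasis hg0).finite
  have : NumberField (AdjoinRoot gQ) := {}
  have hfin : finrank ℚ (AdjoinRoot gQ) = g.natDegree := by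
    rw [(AdjoinRoot.powerBasis hg0).finrank, AdjoinRoot.powerBasis_dim, hg.natDegree_map]
  have hroot : aeval (AdjoinRoot.root gQ) g = 0 := by
    rw [← aeval_map_algebraMap ℚ, algebraMap_int_eq, ← hgQ, aeval_def,
      Subsingleton.elim (algebraMap ℚ (AdjoinRoot gQ)) (AdjoinRoot.of gQ), AdjoinRoot.eval₂_root]
  let θ : 𝓞 (AdjoinRoot gQ) := ⟨AdjoinRoot.root gQ, g, hg, by rwa [← aeval_def]⟩
  obtain ⟨hinj, hnorm⟩ := BakerExplicit.EffectiveThue.root_facts hg hirr hfin (θ := θ) hroot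
  obtain ⟨T, hT⟩ := norm_form_bound hfin hn hinj
  refine ⟨2 ^ T, T, fun x y m hm heq => ?_⟩
  rw [← mul_pow]
  exact hT x y m hm (by rw [hnorm, heq])

/-- Scaling the variable keeps irreducibility. -/
theorem irreducible_of_comp {p r : ℚ[X]} {a c : ℚ} (ha : a ≠ 0) (hc : c ≠ 0) (hr : Irreducible r)
    (h : p.comp (C a * X) = C c * r) : Irreducible p := by
  have hdeg : ∀ s : ℚ[X], (s.comp (C a * X)).natDegree = s.natDegree := fun s => by
    rw [natDegree_comp, natDegree_C_mul_X a ha, mul_one]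
  have hr' : Irreducible (C c * r) :=
    (irreducible_isUnit_mul (isUnit_C.2 (isUnit_iff_ne_zero.2 hc))).2 hr
  rw [← h] at hr'
  refine ⟨fun hu => hr'.not_isUnit ?_, fun s t hst => ?_⟩
  · obtain ⟨e, he, rfl⟩ := isUnit_iff.1 hu
    rw [C_comp]
    exact isUnit_C.2 he
  · have hp0 : p ≠ 0 := fun e => hr'.ne_zero (by rw [e, zero_comp])
    rw [hst] at hp0
    have hu : ∀ {u : ℚ[X]}, u ≠ 0 → IsUnit (u.comp (C a * X)) → IsUnit u := fun {u} hu0 hu => by
      have h1 := natDegree_eq_zero_of_isUnit hu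
      rw [hdeg] at h1
      rw [eq_C_of_natDegree_eq_zero h1] at hu0 ⊢
      exact isUnit_C.2 (isUnit_iff_ne_zero.2 fun e => hu0 (by rw [e, C_0]))
    rcases hr'.isUnit_or_isUnit (show p.comp (C a * X) = s.comp (C a * X) * t.comp (C a * X) by
      rw [← mul_comp, hst]) with h1 | h1
    · exact Or.inl (hu (left_ne_zero_of_mul hp0) h1)
    · exact Or.inr (hu (right_ne_zero_of_mul hp0) h1)

/-- **Thue equations: a polynomial bound.** -/
theorem thue_form_bound {f : ℤ[X]} (hirr : Irreducible f) (hn : 3 ≤ f.natDegree) :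
    ∃ C T : ℕ, ∀ x y m : ℤ, m ≠ 0 → FA.Thue.form f x y = m →
      x.natAbs ≤ C * m.natAbs ^ T ∧ y.natAbs ≤ C * m.natAbs ^ T := by
  have hf0 : f ≠ 0 := hirr.ne_zero
  set a := f.leadingCoeff with ha
  have ha0 : a ≠ 0 := leadingCoeff_ne_zero.2 hf0
  set n := f.natDegree with hn'
  set g := f.integralNormalization with hgdef
  have hg : g.Monic := monic_integralNormalization hf0
  have hgdeg : g.natDegree = n := natDegree_integralNormalization
  have hev : ∀ t : ℚ, (g.map (Int.castRingHom ℚ)).eval ((a : ℚ) * t) =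
      (a : ℚ) ^ (n - 1) * (f.map (Int.castRingHom ℚ)).eval t := fun t => by
    have h := integralNormalization_eval₂_leadingCoeff_mul (show 1 ≤ f.natDegree by omega)
      (Int.castRingHom ℚ) t
    rwa [eq_intCast, ← eval_map, ← eval_map] at h
  have hgirr : Irreducible g := by
    refine hg.irreducible_iff_irreducible_map_fraction_map.2
      (irreducible_of_comp (a := (a : ℚ)) (c := (a : ℚ) ^ (n - 1)) (Int.cast_ne_zero.2 ha0)
        (pow_ne_zero _ (Int.cast_ne_zero.2 ha0))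
        ((IsPrimitive.Int.irreducible_iff_irreducible_map_cast
          (hirr.isPrimitive (by omega))).1 hirr) ?_)
    rw [algebraMap_int_eq]
    refine Polynomial.funext fun t => ?_
    rw [eval_comp, eval_mul, eval_mul, eval_C, eval_C, eval_X, hev]
  obtain ⟨C₀, T, hT⟩ := monic_form_bound hg hgirr (hgdeg.symm ▸ hn)
  refine ⟨C₀ * (a.natAbs ^ (n - 1)) ^ T, T, fun x y m hm heq => ?_⟩
  have hform : FA.Thue.form g (a * x) y = a ^ (n - 1) * FA.Thue.form f x y := by
    rcases eq_or_ne y 0 with rfl | hy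
    · have h0 : ∀ (q : ℤ[X]) (z : ℤ), FA.Thue.form q z 0 = q.leadingCoeff * z ^ q.natDegree :=
        fun q z => by
          rw [FA.Thue.form, Finset.sum_eq_single q.natDegree
            (fun i hi hne => by
              have := Finset.mem_range.1 hi
              rw [zero_pow (by omega), mul_zero])
            (by simp), Nat.sub_self, pow_zero, mul_one, leadingCoeff]
      rw [h0, h0, hg.leadingCoeff, one_mul, hgdeg, mul_pow, ← ha, ← mul_assoc, ← pow_succ,
        ← hn', Nat.sub_add_cancel (by omega)]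
    · apply Int.cast_injective (α := ℚ)
      push_cast
      rw [FA.Thue.form_eq_mul (K := ℚ) g (a * x) y hy, FA.Thue.form_eq_mul (K := ℚ) f x y hy,
        hgdeg, ← hn', Int.cast_mul, mul_div_assoc, hev]
      ring
  obtain ⟨h1, h2⟩ := hT (a * x) y (a ^ (n - 1) * m) (mul_ne_zero (pow_ne_zero _ ha0) hm)
    (by rw [hform, heq])
  simp only [Int.natAbs_mul, Int.natAbs_pow, mul_pow, ← mul_assoc] at h1 h2
  refine ⟨le_trans ?_ h1, h2⟩
  exact Nat.le_mul_of_pos_left _ (Int.natAbs_pos.2 ha0)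

/-- Scaling a number keeps its degree. -/
theorem natDegree_minpoly_intCast_mul {α : ℝ} (hα : IsIntegral ℚ α) {a : ℤ} (ha : a ≠ 0) :
    (minpoly ℚ ((a : ℝ) * α)).natDegree = (minpoly ℚ α).natDegree := by
  have hmem : ∀ (L : IntermediateField ℚ ℝ), (a : ℝ) ∈ L := fun L => intCast_mem L a
  have hint : IsIntegral ℚ ((a : ℝ) * α) :=
    (isIntegral_algebraMap (A := ℝ) (x := (a : ℚ))).mul hα |> fun h => by simpa using h
  rw [← IntermediateField.adjoin.finrank hint, ← IntermediateField.adjoin.finrank hα]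
  have e : IntermediateField.adjoin ℚ ({(a : ℝ) * α} : Set ℝ) =
      IntermediateField.adjoin ℚ ({α} : Set ℝ) := by
    refine le_antisymm (IntermediateField.adjoin_simple_le_iff.2
      (mul_mem (hmem _) (IntermediateField.mem_adjoin_simple_self ℚ α)))
      (IntermediateField.adjoin_simple_le_iff.2 ?_)
    have h := mul_mem (inv_mem (hmem (IntermediateField.adjoin ℚ ({(a : ℝ) * α} : Set ℝ))))
      (IntermediateField.mem_adjoin_simple_self ℚ ((a : ℝ) * α))
    rwa [inv_mul_cancel_left₀ (Int.cast_ne_zero.2 ha)] at h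
  rw [e]

/-- **Feldman's theorem.** -/
theorem approximation_bound {α : ℝ} (hα : IsAlgebraic ℚ α) (hd : 3 ≤ (minpoly ℚ α).natDegree) :
    ∃ c η : ℝ, 0 < c ∧ 0 < η ∧ η ≤ 1 ∧ ∀ (p : ℤ) (q : ℕ), 0 < q →
      c / (q : ℝ) ^ (((minpoly ℚ α).natDegree : ℝ) - η) ≤ |α - p / q| := by
  set d := (minpoly ℚ α).natDegree with hddef
  obtain ⟨a, ha0, haint⟩ :=
    ((IsFractionRing.isAlgebraic_iff ℤ ℚ ℝ).2 hα).exists_integral_multiple
  rw [zsmul_eq_mul] at haint
  set θ := (a : ℝ) * α with hθ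
  set g := minpoly ℤ θ
  have hg : g.Monic := minpoly.monic haint
  have hgQ : minpoly ℚ θ = g.map (algebraMap ℤ ℚ) :=
    minpoly.isIntegrallyClosed_eq_field_fractions' ℚ haint
  have hgdeg : g.natDegree = d := by
    rw [hddef, ← natDegree_minpoly_intCast_mul hα.isIntegral ha0, ← hθ, hgQ, hg.natDegree_map]
  have hgirr : Irreducible g := minpoly.irreducible haint
  obtain ⟨C, T, hT⟩ := monic_form_bound hg hgirr (hgdeg.symm ▸ hd)
  -- the cofactor near the root
  set gR := g.map (Int.castRingHom ℝ) with hgR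
  have hroot : gR.IsRoot θ := by
    rw [IsRoot, hgR, eval_map, ← algebraMap_int_eq, ← aeval_def]
    exact minpoly.aeval ℤ θ
  obtain ⟨g₁, hg₁⟩ := dvd_iff_isRoot.2 hroot
  obtain ⟨L, hL⟩ :=
    (isCompact_Icc (a := θ - |(a : ℝ)|) (b := θ + |(a : ℝ)|)).exists_bound_of_continuousOn
    g₁.continuous.continuousOn
  set L' := (|L| + 1) * |(a : ℝ)| with hL'
  have haR : 0 < |(a : ℝ)| := abs_pos.2 (Int.cast_ne_zero.2 ha0)
  have hL'0 : 0 < L' := mul_pos (by positivity) haR
  set η : ℝ := ((T + 1 : ℕ) : ℝ)⁻¹ with hη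
  have hη0 : 0 < η := inv_pos.2 (Nat.cast_pos.2 (Nat.succ_pos T))
  have hη1 : η ≤ 1 := inv_le_one_of_one_le₀ (by exact_mod_cast Nat.succ_pos T)
  set C' : ℝ := ((C + 1 : ℕ) : ℝ) with hC'
  have hC'0 : 0 < C' := Nat.cast_pos.2 (Nat.succ_pos C)
  refine ⟨min 1 (1 / (C' ^ η * L')), η, lt_min one_pos (by positivity), hη0, hη1,
    fun p q hq => ?_⟩
  have hq0 : (0 : ℝ) < q := Nat.cast_pos.2 hq
  have hq1 : (1 : ℝ) ≤ q := by exact_mod_cast hq
  have hpow1 : (1 : ℝ) ≤ (q : ℝ) ^ ((d : ℝ) - η) := Real.one_le_rpow hq1 (by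
    have : (3 : ℝ) ≤ d := by exact_mod_cast hd
    linarith)
  rcases le_or_gt 1 |α - p / q| with hbig | hsmall
  · exact ((div_le_self (le_min zero_le_one (by positivity)) hpow1).trans (min_le_left _ _)).trans
      hbig
  set m := FA.Thue.form g (a * p) q with hm
  have hqz : (q : ℤ) ≠ 0 := by exact_mod_cast hq.ne'
  have hmeq : (m : ℝ) = (q : ℝ) ^ d * gR.eval ((a : ℝ) * ((p : ℝ) / q)) := by
    rw [hm, FA.Thue.form_eq_mul (K := ℝ) g (a * p) q hqz, hgdeg, hgR]
    push_cast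
    rw [mul_div_assoc]
  have hm0 : m ≠ 0 := fun h0 => by
    have h1 := FA.Thue.form_eq_mul (K := ℚ) g (a * p) q hqz
    rw [← hm, h0, Int.cast_zero, eq_comm, mul_eq_zero] at h1
    have h2 := h1.resolve_left (pow_ne_zero _ (Int.cast_ne_zero.2 hqz))
    rw [← algebraMap_int_eq, ← hgQ] at h2
    have h3 : _ = (1 : ℕ) := natDegree_eq_of_degree_eq_some (degree_eq_one_of_irreducible_of_root
      (minpoly.irreducible (haint.tower_top (A := ℚ))) h2)
    rw [hgQ, hg.natDegree_map] at h3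
    omega
  obtain ⟨-, hqm⟩ := hT (a * p) q m hm0 rfl
  have hmle : |(m : ℝ)| ≤ L' * ((q : ℝ) ^ d * |α - p / q|) := by
    have hdiff : (a : ℝ) * ((p : ℝ) / q) - θ = -((a : ℝ) * (α - p / q)) := by rw [hθ]; ring
    have hmem : (a : ℝ) * ((p : ℝ) / q) ∈ Set.Icc (θ - |(a : ℝ)|) (θ + |(a : ℝ)|) := by
      have h1 : |(a : ℝ) * ((p : ℝ) / q) - θ| ≤ |(a : ℝ)| := by
        rw [hdiff, abs_neg, abs_mul]
        exact mul_le_of_le_one_right (abs_nonneg _) hsmall.le
      exact ⟨by linarith [(abs_le.1 h1).1], by linarith [(abs_le.1 h1).2]⟩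
    have h2 : ‖g₁.eval ((a : ℝ) * ((p : ℝ) / q))‖ ≤ |L| + 1 :=
      (hL _ hmem).trans (by linarith [le_abs_self L])
    rw [hmeq, hg₁, eval_mul, eval_sub, eval_X, eval_C, hdiff, abs_mul, abs_mul, abs_neg, abs_mul,
      abs_of_pos (pow_pos hq0 d)]
    rw [Real.norm_eq_abs] at h2
    calc (q : ℝ) ^ d * (|(a : ℝ)| * |α - p / q| * |g₁.eval ((a : ℝ) * ((p : ℝ) / q))|)
        ≤ (q : ℝ) ^ d * (|(a : ℝ)| * |α - p / q| * (|L| + 1)) := by gcongr
      _ = _ := by rw [hL']; ring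
  have hm1 : (1 : ℝ) ≤ |(m : ℝ)| := by exact_mod_cast Int.one_le_abs hm0
  have hqC : (q : ℝ) ≤ C' * |(m : ℝ)| ^ (T + 1) := by
    have h1 : (q : ℝ) ≤ (C : ℝ) * |(m : ℝ)| ^ T := by
      rw [← Int.cast_abs, ← Int.natCast_natAbs, Int.cast_natCast]
      rw [Int.natAbs_natCast] at hqm
      exact_mod_cast hqm
    refine h1.trans (mul_le_mul ?_ (pow_le_pow_right₀ hm1 (Nat.le_succ T)) (by positivity) hC'0.le)
    rw [hC']; push_cast; linarith
  have h4 : (q : ℝ) ^ η ≤ C' ^ η * |(m : ℝ)| := by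
    refine (Real.rpow_le_rpow hq0.le hqC hη0.le).trans_eq ?_
    rw [Real.mul_rpow hC'0.le (by positivity), hη,
      Real.pow_rpow_inv_natCast (abs_nonneg _) (Nat.succ_ne_zero T)]
  refine le_trans (div_le_div_of_nonneg_right (min_le_right _ _) (by positivity)) ?_
  rw [Real.rpow_sub hq0, Real.rpow_natCast, div_div_eq_mul_div, div_mul_eq_mul_div, one_mul,
    div_div, div_le_iff₀ (by positivity)]
  calc (q : ℝ) ^ η ≤ C' ^ η * |(m : ℝ)| := h4
    _ ≤ C' ^ η * (L' * ((q : ℝ) ^ d * |α - p / q|)) :=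
        mul_le_mul_of_nonneg_left hmle (by positivity)
    _ = _ := by ring

end FA.Feldman

end
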