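import Fermat.Agent.Root.SummaryBakerLastHeight
import Fermat.Agent.SchinzelTijdeman.Exponent
import Fermat.Agent.BakerExplicit.Thue

/-!
# Norm forms in two variables: a polynomial bound (Feldman)

With `β = x - θ y = γ ∏ u i ^ k i` the height of `γ` is `O (R)`, `R = log |M| + 1`, and the `k i`
are `O (log |y| + R)`. The sharpened theorem of Baker, where only `(log |y| + R) / R` enters,
gives `log |y| = O (R)`.
-/

set_option autoImplicit false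

noncomputable section

namespace FA.Feldman

open Finset NumberField NumberField.Units Module
open BakerExplicit.EffectiveThue BakerExplicit.UnitExponents
open scoped Real

/-- The height of an integer with bounded conjugates. -/
theorem logHeight_le_of_bounded {F : Type*} [Field F] [NumberField F] {x : F}
    (hint : IsIntegral ℤ x) {a : ℕ} (h : ∀ ρ : F →+* ℂ, ‖ρ x‖ ≤ (2 : ℝ) ^ a) :
    Height.logHeight₁ x ≤ ((finrank ℚ F * a : ℕ) : ℝ) := by
  set x' : 𝓞 F := ⟨x, hint⟩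
  have h1 := FA.AbelianHeight.mulHeight_mul_absNorm (K := F) one_ne_zero
    (x := x) (a := x') (by rw [Nat.cast_one, one_mul]; rfl)
  rw [show Ideal.span {x', ((1 : ℕ) : 𝓞 F)} = ⊤ from
    (Ideal.eq_top_iff_one _).2 (Ideal.subset_span (by simp)), Ideal.absNorm_top, Nat.cast_one,
    mul_one] at h1
  have h3 : Height.mulHeight₁ x ≤ ((2 : ℝ) ^ a) ^ finrank ℚ F := by
    rw [h1, ← Embeddings.card F ℂ, ← card_univ, ← prod_const]
    refine prod_le_prod (fun _ _ => le_max_of_le_left (norm_nonneg _)) fun σ _ => max_le ?_ ?_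
    · exact h σ
    · simpa using one_le_pow₀ (one_le_two (α := ℝ))
  rw [Height.logHeight₁_eq_log_mulHeight₁]
  refine (Real.log_le_log (Height.mulHeight₁_pos _) h3).trans ?_
  rw [← pow_mul, Real.log_pow, mul_comm a]
  exact mul_le_of_le_one_right (Nat.cast_nonneg _) (by linarith [Real.log_two_lt_d9])

/-- The height of a quotient. -/
theorem logHeight_div_le {F : Type*} [Field F] [NumberField F] {x y : F} {s t : ℝ}
    (hx : Height.logHeight₁ x ≤ s) (hy : Height.logHeight₁ y ≤ t) :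
    Height.logHeight₁ (x / y) ≤ s + t := by
  rw [div_eq_mul_inv]
  refine (Height.logHeight₁_mul_le _ _).trans (add_le_add hx ?_)
  rw [Height.logHeight₁_inv]
  exact hy

variable {K : Type*} [Field K] [NumberField K]

/-- The constant `h` of the form. -/
def formHeight (n hθ h₀ r : ℕ) : ℕ :=
  n ^ 3 * (2 * (hθ + 1) + 4 * (r * h₀ + 1) + 4 * h₀) + 8

/-- **Baker's theorem applied**, for three conjugates. -/
theorem form_le {n hθ h₀ r R m : ℕ} (hfin : finrank ℚ K = n) (hR : 1 ≤ R) {θ : 𝓞 K}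
    (hθh : ∀ σ : K →+* ℂ, ‖σ (θ : K)‖ ≤ (2 : ℝ) ^ hθ) {u : Fin r → (𝓞 K)ˣ}
    (huh : ∀ i (σ : K →+* ℂ), |Real.log ‖σ (u i : K)‖| ≤ h₀) {k : Fin r → ℤ} {β : K} {γ : 𝓞 K}
    (hγU : (γ : K) * ((unitPow u k : (𝓞 K)ˣ) : K) = β) (hγ0 : ∀ σ : K →+* ℂ, σ (γ : K) ≠ 0)
    (hγlog : ∀ σ : K →+* ℂ, |Real.log ‖σ (γ : K)‖| ≤ (((r * h₀ + 1) * R : ℕ) : ℝ))
    {N : ℕ} (hN : 1 ≤ N) (hkm : ∀ i, (k i).natAbs ≤ N) (hNm : (r + 1) * N ≤ 2 ^ m * R)
    {σ₁ σ₂ σ₃ : K →+* ℂ} (h12 : σ₁ (θ : K) ≠ σ₂ (θ : K)) (h13 : σ₁ (θ : K) ≠ σ₃ (θ : K)) {P : ℂ}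
    (hP : P = (σ₁ (θ : K) - σ₃ (θ : K)) / (σ₁ (θ : K) - σ₂ (θ : K)) * (σ₂ β / σ₃ β))
    (hP0 : P ≠ 0) (hΛ0 : Complex.log P ≠ 0) :
    1 / (2 : ℝ) ^ (R * (BakerLastHeight.lastHeightConst (r + 1) (n ^ 3) *
        (formHeight n hθ h₀ r + m + 1)) ^ BakerLastHeight.lastHeightKappa (r + 1)) ≤
      ‖Complex.log P‖ := by
  classical
  obtain ⟨F, hNF, τ₁, τ₂, τ₃, hdeg, hτ₁', hτ₂', hτ₃'⟩ := exists_field hfin σ₁ σ₂ σ₃
  let ψ : F →+* ℂ := F.val.toRingHom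
  have hτ₁ : ∀ z, ψ (τ₁ z) = σ₁ z := hτ₁'
  have hτ₂ : ∀ z, ψ (τ₂ z) = σ₂ z := hτ₂'
  have hτ₃ : ∀ z, ψ (τ₃ z) = σ₃ z := hτ₃'
  have hint : ∀ (τ : K →+* F) (v : 𝓞 K), IsIntegral ℤ (τ (v : K)) := fun τ v =>
    map_isIntegral_int τ v.isIntegral_coe
  have hH : ∀ {x : F} {a : ℕ}, IsIntegral ℤ x → (∀ ρ : F →+* ℂ, ‖ρ x‖ ≤ (2 : ℝ) ^ a) →
      Height.logHeight₁ x ≤ ((n ^ 3 * a : ℕ) : ℝ) := fun hx hb =>
    (logHeight_le_of_bounded hx hb).trans (Nat.cast_le.2 (Nat.mul_le_mul_right _ hdeg))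
  have hdiff : ∀ τ τ' : K →+* F,
      Height.logHeight₁ (τ (θ : K) - τ' (θ : K)) ≤ ((n ^ 3 * (hθ + 1) : ℕ) : ℝ) := fun τ τ' =>
    hH ((hint τ θ).sub (hint τ' θ)) fun ρ => (conj_gap hdeg hθh τ τ' ρ).1
  have hlog : ∀ (v : 𝓞 K) (a : ℕ), (∀ σ : K →+* ℂ, σ (v : K) ≠ 0) →
      (∀ σ : K →+* ℂ, |Real.log ‖σ (v : K)‖| ≤ a) → ∀ τ : K →+* F,
        Height.logHeight₁ (τ (v : K)) ≤ ((n ^ 3 * (2 * a) : ℕ) : ℝ) := fun v a hv0 hv τ =>
    hH (hint τ v) fun ρ =>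
      le_two_pow_of_abs_log_le (norm_pos_iff.2 (hv0 (ρ.comp τ))) (hv (ρ.comp τ))
  set δ : F := (τ₁ (θ : K) - τ₃ (θ : K)) / (τ₁ (θ : K) - τ₂ (θ : K)) with hδ
  set α₀ : F := δ * (τ₂ (γ : K) / τ₃ (γ : K)) with hα₀def
  set q : Fin r → F := fun i => τ₂ (u i : K) / τ₃ (u i : K) with hq
  set H := formHeight n hθ h₀ r with hHdef
  have hψ12 : σ₁ (θ : K) - σ₂ (θ : K) ≠ 0 := sub_ne_zero.2 h12
  have hψ13 : σ₁ (θ : K) - σ₃ (θ : K) ≠ 0 := sub_ne_zero.2 h13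
  have hψα₀ : ψ α₀ = (σ₁ (θ : K) - σ₃ (θ : K)) / (σ₁ (θ : K) - σ₂ (θ : K)) *
      (σ₂ (γ : K) / σ₃ (γ : K)) := by
    simp only [hα₀def, hδ, map_mul, map_div₀, map_sub, hτ₁, hτ₂, hτ₃]
  have hα₀0 : ψ α₀ ≠ 0 := by
    rw [hψα₀]; exact mul_ne_zero (div_ne_zero hψ13 hψ12) (div_ne_zero (hγ0 σ₂) (hγ0 σ₃))
  have hψq0 : ∀ i, ψ (q i) ≠ 0 := fun i => by
    simp only [hq, map_div₀, hτ₂, hτ₃]
    exact div_ne_zero (map_unit_ne_zero σ₂ _) (map_unit_ne_zero σ₃ _)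
  have hα₀H : Height.logHeight₁ α₀ + 4 ≤ ((H * R : ℕ) : ℝ) := by
    have hγH := hlog γ _ hγ0 hγlog
    have h1 := (Height.logHeight₁_mul_le δ (τ₂ (γ : K) / τ₃ (γ : K))).trans
      (add_le_add (logHeight_div_le (hdiff τ₁ τ₃) (hdiff τ₁ τ₂))
        (logHeight_div_le (hγH τ₂) (hγH τ₃)))
    have h2 : n ^ 3 * (hθ + 1) + n ^ 3 * (hθ + 1) + (n ^ 3 * (2 * ((r * h₀ + 1) * R)) +
        n ^ 3 * (2 * ((r * h₀ + 1) * R))) + 4 ≤ H * R := by
      have e : H * R = n ^ 3 * (hθ + 1) * R + n ^ 3 * (hθ + 1) * R +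
          (n ^ 3 * (2 * ((r * h₀ + 1) * R)) + n ^ 3 * (2 * ((r * h₀ + 1) * R))) +
          (n ^ 3 * (4 * h₀) + 8) * R := by rw [hHdef, formHeight]; ring
      have h3 : n ^ 3 * (hθ + 1) ≤ n ^ 3 * (hθ + 1) * R := Nat.le_mul_of_pos_right _ hR
      have h4 : 4 * 1 ≤ (n ^ 3 * (4 * h₀) + 8) * R := Nat.mul_le_mul (by omega) hR
      omega
    refine (add_le_add h1 le_rfl).trans ?_
    exact_mod_cast h2
  have hqH : ∀ i, Height.logHeight₁ (q i) + 4 ≤ (H : ℝ) := fun i => by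
    have hqi := hlog (u i : 𝓞 K) h₀ (fun σ => map_unit_ne_zero σ (u i)) (huh i)
    refine (add_le_add (logHeight_div_le (hqi τ₂) (hqi τ₃)) le_rfl).trans ?_
    have h2 : n ^ 3 * (2 * h₀) + n ^ 3 * (2 * h₀) + 4 ≤ H := by
      have e : H = (n ^ 3 * (2 * h₀) + n ^ 3 * (2 * h₀)) +
          n ^ 3 * (2 * (hθ + 1) + 4 * (r * h₀ + 1)) + 8 := by rw [hHdef, formHeight]; ring
      omega
    exact_mod_cast h2
  have hψq : ∀ i, ψ (q i) = σ₂ (u i : K) / σ₃ (u i : K) := fun i => by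
    simp only [hq, map_div₀, hτ₂, hτ₃]
  set S := Complex.log (ψ α₀) + ∑ i, (k i : ℂ) * Complex.log (ψ (q i)) with hS
  have hexpS : Complex.exp S = P := by
    rw [hS, Complex.exp_add, Complex.exp_sum, Complex.exp_log hα₀0, hψα₀, hP, mul_assoc]
    congr 1
    simp only [Complex.exp_int_mul, Complex.exp_log (hψq0 _)]
    simp only [hψq, div_zpow, prod_div_distrib]
    rw [← map_unitPow, ← map_unitPow, div_mul_div_comm, ← map_mul σ₂, ← map_mul σ₃, hγU]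
  obtain ⟨e, he⟩ := Complex.exp_eq_exp_iff_exists_int.1
    ((Complex.exp_log hP0).trans hexpS.symm)
  set l : Fin (r + 1) → ℂ := Fin.cons (2 * π * Complex.I) fun i => Complex.log (ψ (q i)) with hl
  set b : Fin (r + 1) → ℤ := Fin.cons e k with hb
  have hsum : ∑ i, (b i : ℂ) * l i + ((1 : ℤ) : ℂ) * Complex.log (ψ α₀) = Complex.log P := by
    simp only [l, b, Fin.sum_univ_succ, Fin.cons_zero, Fin.cons_succ]
    rw [he, hS]
    push_cast
    ring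
  have heN : e.natAbs ≤ (r + 1) * N := by
    have him := congrArg Complex.im he
    simp [hS, Complex.log_im] at him
    have ha := Complex.abs_arg_le_pi
    have hsumb : |∑ i, (k i : ℝ) * (ψ (q i)).arg| ≤ ((r * N : ℕ) : ℝ) * π := by
      refine (abs_sum_le_sum_abs _ _).trans ((sum_le_card_nsmul _ _ ((N : ℝ) * π)
        fun i _ => ?_).trans_eq ?_)
      · rw [abs_mul, ← Int.cast_abs, ← Int.natCast_natAbs, Int.cast_natCast]
        exact mul_le_mul (by exact_mod_cast hkm i) (ha _) (abs_nonneg _) (Nat.cast_nonneg _)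
      · rw [card_univ, Fintype.card_fin, nsmul_eq_mul, Nat.cast_mul, mul_assoc]
    have h1 : |(e : ℝ) * (2 * π)| ≤ (((r + 1) * N : ℕ) : ℝ) * (2 * π) := by
      rw [show (e : ℝ) * (2 * π) = P.arg - (ψ α₀).arg - ∑ i, (k i : ℝ) * (ψ (q i)).arg by
        rw [him]; ring]
      refine (abs_sub _ _).trans ((add_le_add ((abs_sub _ _).trans (add_le_add (ha _) (ha _)))
        hsumb).trans ?_)
      have hN' : (1 : ℝ) ≤ N := by exact_mod_cast hN
      have hπ := Real.pi_pos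
      have h5 : π * 1 ≤ π * N := mul_le_mul_of_nonneg_left hN' hπ.le
      have h6 : 0 ≤ (r : ℝ) * N * π := by positivity
      push_cast
      nlinarith
    rw [abs_mul, abs_of_pos Real.two_pi_pos, ← Int.cast_abs, ← Int.natCast_natAbs,
      Int.cast_natCast] at h1
    exact_mod_cast le_of_mul_le_mul_right h1 Real.two_pi_pos
  have hexp : ∀ i, Complex.exp (l i) = ψ ((Fin.cons 1 q : Fin (r + 1) → F) i) :=
    Fin.cases (by simp [l, Complex.exp_two_pi_mul_I]) fun i => by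
      simp only [l, Fin.cons_succ]; exact Complex.exp_log (hψq0 i)
  have hH8 : (8 : ℝ) ≤ H := by exact_mod_cast (Nat.le_add_left 8 _)
  have hlle : ∀ i, ‖l i‖ ≤ (H : ℝ) := Fin.cases (by
      simp only [l, Fin.cons_zero, norm_mul, Complex.norm_real, Complex.norm_I,
        RCLike.norm_ofNat, Real.norm_eq_abs, abs_of_pos Real.pi_pos, mul_one]
      linarith [Real.pi_lt_four]) fun i => by
    simp only [l, Fin.cons_succ]
    exact (SchinzelTijdeman.norm_log_le ψ fun h0 => hψq0 i (by rw [h0, map_zero])).trans (hqH i)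
  have hbm : ∀ i, (b i).natAbs ≤ 2 ^ m * R := Fin.cases (heN.trans hNm) fun i => by
    simp only [b, Fin.cons_succ]
    exact (hkm i).trans ((Nat.le_mul_of_pos_left _ (Nat.succ_pos r)).trans hNm)
  have key := BakerLastHeight.baker_last_height_ratio hdeg ψ (h := H) (m := m) hR
    (α := Fin.cons 1 q) (α₀ := α₀)
    (Fin.cases (by simp) fun i => by simp only [Fin.cons_succ]; linarith [hqH i])
    (by linarith) hexp (Complex.exp_log hα₀0) hlle
    ((SchinzelTijdeman.norm_log_le ψ fun h0 => hα₀0 (by rw [h0, map_zero])).trans hα₀H) hbm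
    (b₀ := 1) (by simpa using Nat.one_le_two_pow) one_ne_zero (by rw [hsum]; exact hΛ0)
  rw [hsum] at key
  exact key

set_option maxHeartbeats 800000 in
/-- **The polynomial bound.** -/
theorem norm_form_bound {n : ℕ} (hfin : finrank ℚ K = n) (hn : 3 ≤ n) {θ : 𝓞 K}
    (hθ : Function.Injective fun σ : K →+* ℂ => σ (θ : K)) :
    ∃ T : ℕ, ∀ x y M : ℤ, M ≠ 0 → Algebra.norm ℚ ((x : K) - (θ : K) * y) = (M : ℚ) →
      x.natAbs ≤ (2 * M.natAbs) ^ T ∧ y.natAbs ≤ (2 * M.natAbs) ^ T := by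
  classical
  obtain ⟨hθn, hθn'⟩ : ∃ A : ℕ, ∀ σ : K →+* ℂ, ‖σ (θ : K)‖ ≤ (2 : ℝ) ^ A :=
    ⟨⌈house (θ : K)⌉₊, fun σ => ((norm_embedding_le_house _ σ).trans (Nat.le_ceil _)).trans
      (by exact_mod_cast Nat.lt_two_pow_self.le)⟩
  obtain ⟨u, hu, h₀, huh⟩ : ∃ u : Fin (rank K) → (𝓞 K)ˣ, IsMaxRank u ∧
      ∃ h₀ : ℕ, ∀ i (σ : K →+* ℂ), |Real.log ‖σ (u i : K)‖| ≤ h₀ := by
    obtain ⟨h₀, hh₀⟩ := Finite.exists_le fun p : Fin (rank K) × (K →+* ℂ) =>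
      ⌈|Real.log ‖p.2 (fundSystem K p.1 : K)‖|⌉₊
    exact ⟨fundSystem K, isMaxRank_fundSystem (K := K), h₀, fun i σ =>
      (Nat.le_ceil _).trans (Nat.cast_le.2 (hh₀ (i, σ)))⟩
  set e₁ := gapExp n hθn
  set cX := n * (2 * hθn + 5) + rank K * h₀ + 1
  set E₀ := 2 * n * (2 * (rank K * h₀) + 5)
  set mc := (rank K + 1) + cX + E₀ + 1
  obtain ⟨C, hC⟩ : ∃ C, BakerLastHeight.lastHeightConst (rank K + 1) (n ^ 3) = C := ⟨_, rfl⟩
  obtain ⟨κ, hκdef⟩ : ∃ κ, BakerLastHeight.lastHeightKappa (rank K + 1) = κ := ⟨_, rfl⟩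
  have hκ : 1 ≤ κ := by
    have := BakerLastHeight.coreKappa_facts (rank K + 1 + 1)
    rw [← hκdef, BakerLastHeight.lastHeightKappa]
    omega
  set c₀ := 2 * hθn + 6 + 2 * e₁
  set H := formHeight n hθn h₀ (rank K) with hHdef
  obtain ⟨D, hD⟩ : ∃ D, D = (C * (H + mc + 2)) ^ κ := ⟨_, rfl⟩
  set T₀ := 2 * (c₀ + 1) + 2 * (2 * κ) ^ (2 * κ) * D ^ 2
  refine ⟨hθn + 2 + T₀, fun x y M hM hnorm => ?_⟩
  set R := Nat.log 2 M.natAbs + 1 with hR
  have hR1 : 1 ≤ R := Nat.le_add_left 1 _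
  set h' := hθn + R with hh'
  have hMh : M.natAbs ≤ 2 ^ h' := (Nat.lt_pow_succ_log_self one_lt_two _).le.trans
    (Nat.pow_le_pow_right two_pos (by omega))
  have hθh' : ∀ σ : K →+* ℂ, ‖σ (θ : K)‖ ≤ (2 : ℝ) ^ h' := fun σ =>
    (hθn' σ).trans (pow_le_pow_right₀ one_le_two (Nat.le_add_right _ _))
  obtain ⟨σ₁, hmin⟩ := exists_small_conj hMh hnorm
  set Y := Nat.log 2 y.natAbs with hY
  suffices hkey : Y + 1 ≤ R * T₀ by
    have hyY : y.natAbs < 2 ^ (Y + 1) := Nat.lt_pow_succ_log_self one_lt_two _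
    have hpow : ∀ {z a : ℕ}, z ≤ 2 ^ a → a ≤ R * (hθn + 2 + T₀) →
        z ≤ (2 * M.natAbs) ^ (hθn + 2 + T₀) := fun {z a} hz ha => by
      refine hz.trans ((Nat.pow_le_pow_right two_pos ha).trans ?_)
      rw [pow_mul, hR, pow_succ']
      exact Nat.pow_le_pow_left
        (Nat.mul_le_mul_left 2 (Nat.pow_log_le_self 2 (Int.natAbs_ne_zero.2 hM))) _
    refine ⟨hpow (a := h' + (Y + 1)) ?_ ?_, hpow hyY.le ?_⟩
    · have h1 : |(x : ℝ)| ≤ (2 : ℝ) ^ h' * (|(y : ℝ)| + 1) := by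
        have h2 : (x : ℂ) = σ₁ ((x : K) - (θ : K) * y) + σ₁ (θ : K) * y := by
          rw [map_lin]; ring
        rw [← Complex.norm_intCast, h2]
        refine (norm_add_le _ _).trans ?_
        rw [norm_mul, Complex.norm_intCast, mul_add, mul_one, add_comm]
        exact add_le_add (mul_le_mul_of_nonneg_right (hθh' σ₁) (abs_nonneg _)) hmin
      rw [← Int.cast_abs, ← Int.cast_abs, ← Int.natCast_natAbs, ← Int.natCast_natAbs,
        Int.cast_natCast, Int.cast_natCast] at h1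
      have h3 : x.natAbs ≤ 2 ^ h' * (y.natAbs + 1) := by exact_mod_cast h1
      rw [pow_add]
      exact h3.trans (Nat.mul_le_mul_left _ hyY)
    · rw [mul_add, mul_add, hh']
      have : hθn ≤ R * hθn := Nat.le_mul_of_pos_left _ hR1
      omega
    · exact hkey.trans (Nat.mul_le_mul_left _ (Nat.le_add_left _ _))
  set t := Y / R + 1 with ht
  have hYt : Y + 1 ≤ R * t := Nat.lt_mul_div_succ Y hR1
  suffices ht0 : t ≤ c₀ + 1 + D * (Nat.log 2 t + 1) ^ κ by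
    exact hYt.trans (Nat.mul_le_mul_left _ (BakerExplicit.le_of_le_add_mul_log_pow hκ ht0))
  have hc₀R : 2 * h' + 4 + 2 * e₁ ≤ R * c₀ := by
    have h1 : 2 * hθn + 4 + 2 * e₁ ≤ R * (2 * hθn + 4 + 2 * e₁) := Nat.le_mul_of_pos_left _ hR1
    have e : R * c₀ = R * (2 * hθn + 4 + 2 * e₁) + R * 2 := by ring
    omega
  rcases le_or_gt Y (2 * h' + 4 + 2 * e₁) with hs | hs
  · have h1 : Y / R ≤ c₀ := Nat.div_le_of_le_mul (hs.trans hc₀R)
    omega
  have hy : 2 ^ (2 * h' + 4 + 2 * e₁) ≤ y.natAbs :=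
    (Nat.pow_le_pow_right two_pos hs.le).trans (Nat.pow_log_le_self 2 fun e => by
      rw [hY, e, Nat.log_zero_right] at hs; omega)
  have hyR : (2 : ℝ) ^ (2 * h' + 4 + 2 * e₁) ≤ |(y : ℝ)| := by
    rw [← Int.cast_abs, ← Int.natCast_natAbs, Int.cast_natCast]
    exact_mod_cast hy
  have hy1 : (1 : ℝ) ≤ |(y : ℝ)| := le_trans (one_le_pow₀ one_le_two) hyR
  have hyY : |(y : ℝ)| ≤ (2 : ℝ) ^ (Y + 1) := by
    rw [← Int.cast_abs, ← Int.natCast_natAbs, Int.cast_natCast]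
    exact_mod_cast (Nat.lt_pow_succ_log_self one_lt_two y.natAbs).le
  set β : 𝓞 K := (x : 𝓞 K) - θ * (y : 𝓞 K) with hβ
  have hβc : (β : K) = (x : K) - (θ : K) * y := by simp [hβ]
  have hβ0 : (x : K) - (θ : K) * y ≠ 0 := fun e => hM (by
    rw [e, Algebra.norm_zero] at hnorm; exact_mod_cast hnorm.symm)
  obtain ⟨k, hk⟩ := exists_decomposition hu huh hM hnorm
  set γ : 𝓞 K := β * (((unitPow u k)⁻¹ : (𝓞 K)ˣ) : 𝓞 K) with hγ
  have hγU : (γ : K) * ((unitPow u k : (𝓞 K)ˣ) : K) = (x : K) - (θ : K) * y := by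
    rw [← map_mul, hγ, mul_assoc, ← Units.val_mul, inv_mul_cancel, Units.val_one, mul_one]
    exact hβc
  have hγ0 : ∀ σ : K →+* ℂ, σ (γ : K) ≠ 0 := fun σ e => (map_ne_zero σ).2 hβ0 (by
    rw [← hγU, map_mul, e, zero_mul])
  have hM1 : (1 : ℝ) ≤ |(M : ℝ)| := by exact_mod_cast Int.one_le_abs hM
  have hcR : 0 ≤ Real.log |(M : ℝ)| / finrank ℚ K ∧ Real.log |(M : ℝ)| / finrank ℚ K ≤ R := by
    refine ⟨div_nonneg (Real.log_nonneg hM1) (Nat.cast_nonneg _),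
      (div_le_self (Real.log_nonneg hM1) (by exact_mod_cast finrank_pos)).trans ?_⟩
    refine (Real.log_le_log (by linarith) (show |(M : ℝ)| ≤ (2 : ℝ) ^ R by
      rw [← Int.cast_abs, ← Int.natCast_natAbs, Int.cast_natCast]
      exact_mod_cast (Nat.lt_pow_succ_log_self one_lt_two M.natAbs).le)).trans ?_
    rw [Real.log_pow]
    exact mul_le_of_le_one_right (Nat.cast_nonneg _) (by linarith [Real.log_two_lt_d9])
  have hrR : ((rank K * h₀ : ℕ) : ℝ) + R ≤ (((rank K * h₀ + 1) * R : ℕ) : ℝ) := by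
    have h1 : rank K * h₀ + R ≤ (rank K * h₀ + 1) * R := by
      rw [add_mul, one_mul]; exact Nat.add_le_add_right (Nat.le_mul_of_pos_right _ hR1) _
    exact_mod_cast h1
  have hsplit : ∀ σ : K →+* ℂ, Real.log ‖σ ((x : K) - (θ : K) * y)‖ =
      Real.log ‖σ (γ : K)‖ + Real.log ‖σ ((unitPow u k : (𝓞 K)ˣ) : K)‖ := fun σ => by
    rw [← hγU, map_mul, norm_mul, Real.log_mul (norm_ne_zero_iff.2 (hγ0 σ))
      (norm_ne_zero_iff.2 (map_unit_ne_zero σ (unitPow u k)))]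
  have hγlog : ∀ σ : K →+* ℂ, |Real.log ‖σ (γ : K)‖| ≤ (((rank K * h₀ + 1) * R : ℕ) : ℝ) :=
      fun σ => by
    have h1 := abs_le.1 (hk σ)
    have h2 := hsplit σ
    rw [abs_le]
    constructor <;> linarith [hcR.1, hcR.2, hrR]
  set X := n * (2 * h' + 3 + Y) + (rank K * h₀ + 1) * R with hX
  have hUlog : ∀ σ : K →+* ℂ, |Real.log ‖σ ((unitPow u k : (𝓞 K)ˣ) : K)‖| ≤ (X : ℕ) := fun σ => by
    have h1 := abs_le.1
      (abs_log_conj_le (Y := Y) hfin (by omega) hθh' hM hnorm hmin hy1 hyY σ)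
    have h2 := abs_le.1 (hγlog σ)
    have h3 := hsplit σ
    rw [abs_le, hX, Nat.cast_add]
    constructor <;> linarith
  have hX1 : 1 ≤ X := le_add_left (Nat.mul_pos (Nat.succ_pos _) hR1)
  have hXle : X ≤ cX * (2 * (t * R)) := by
    have h1 : R + Y ≤ 2 * (t * R) := by
      have h2 : R ≤ R * t := Nat.le_mul_of_pos_right _ (Nat.succ_pos _)
      rw [mul_comm t R]
      omega
    refine le_trans ?_ (Nat.mul_le_mul_left _ h1)
    rw [hX, show cX * (R + Y) = n * ((2 * hθn + 5) * (R + Y)) + (rank K * h₀ + 1) * (R + Y) by ring]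
    refine Nat.add_le_add (Nat.mul_le_mul_left _ ?_) (Nat.mul_le_mul_left _ (Nat.le_add_right _ _))
    rw [hh', mul_add _ R Y]
    have h2 : 2 * hθn + 3 ≤ (2 * hθn + 3) * R := Nat.le_mul_of_pos_right _ hR1
    have h3 : Y ≤ (2 * hθn + 5) * Y := Nat.le_mul_of_pos_left _ (by omega)
    rw [show (2 * hθn + 5) * R = (2 * hθn + 3) * R + 2 * R by ring]
    omega
  set N := cX * (2 * (t * R)) * 2 ^ E₀
  have hN : 1 ≤ N := Nat.mul_pos (lt_of_lt_of_le hX1 hXle) (Nat.two_pow_pos _)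
  have hkm : ∀ i, (k i).natAbs ≤ N := fun i => by
    refine (exponent_le (k := k) (injective_unitPow hu) huh hX1 hUlog i).trans ?_
    rw [hfin]
    exact Nat.mul_le_mul_right _ hXle
  set m := mc + (Nat.log 2 t + 1) with hm
  have hNm : (rank K + 1) * N ≤ 2 ^ m * R := by
    calc (rank K + 1) * N = ((rank K + 1) * cX * 2 * 2 ^ E₀ * t) * R := by
          show (rank K + 1) * (cX * (2 * (t * R)) * 2 ^ E₀) = _
          ring
      _ ≤ (2 ^ (rank K + 1) * 2 ^ cX * 2 ^ 1 * 2 ^ E₀ * 2 ^ (Nat.log 2 t + 1)) * R := by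
          gcongr
          · exact Nat.lt_two_pow_self.le
          · exact Nat.lt_two_pow_self.le
          · norm_num
          · exact (Nat.lt_pow_succ_log_self one_lt_two t).le
      _ = _ := by simp only [← pow_add, hm, mc]; ring_nf
  obtain ⟨σ₂, σ₃, h21, h31, h23⟩ := exists_ne_ne (hn.trans_eq hfin.symm) σ₁
  have h12 : σ₁ (θ : K) ≠ σ₂ (θ : K) := fun e => h21 (hθ e).symm
  have h13 : σ₁ (θ : K) ≠ σ₃ (θ : K) := fun e => h31 (hθ e).symm
  have hne23 : σ₂ (θ : K) ≠ σ₃ (θ : K) := fun e => h23 (hθ e)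
  have h23' : ‖σ₂ (θ : K) - σ₃ (θ : K)‖ ≤ (2 : ℝ) ^ (h' + 1) := by
    rw [pow_succ]
    linarith [norm_sub_le (σ₂ (θ : K)) (σ₃ (θ : K)), hθh' σ₂, hθh' σ₃]
  obtain ⟨hP0, hΛ0, -, hΛ⟩ := log_small (x := x) (y := y) (conj_gap_complex hfin hθn' h12)
    (conj_gap_complex hfin hθn' h13) h23' hne23 (fun t ht => by
      simp only [Set.mem_insert_iff, Set.mem_singleton_iff] at ht
      rcases ht with rfl | rfl | rfl <;> rw [← map_lin] <;> exact (map_ne_zero _).2 hβ0)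
    (by rw [← map_lin]; exact hmin) hyR
  have hlow := form_le hfin hR1 hθn' huh hγU hγ0 hγlog hN hkm hNm h12 h13
    (by rw [map_lin, map_lin]) hP0 hΛ0
  rw [hC, hκdef, ← hHdef] at hlow
  set P := (C * (H + m + 1)) ^ κ
  have hfinal := hlow.trans hΛ
  rw [div_le_div_iff₀ (by positivity) (by linarith), one_mul, ← pow_add, ← Int.cast_abs,
    ← Int.natCast_natAbs, Int.cast_natCast] at hfinal
  have hnat : y.natAbs ≤ 2 ^ (2 * h' + 3 + 2 * e₁ + R * P) := by exact_mod_cast hfinal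
  have hy0 : y.natAbs ≠ 0 := fun e0 => by
    rw [e0] at hy; exact absurd hy (not_le.2 (Nat.two_pow_pos _))
  have hYle : Y ≤ R * (c₀ + P) := by
    have h1 := (Nat.pow_le_pow_iff_right one_lt_two).1 ((Nat.pow_log_le_self 2 hy0).trans hnat)
    rw [mul_add]
    omega
  have hPD : P ≤ D * (Nat.log 2 t + 1) ^ κ := by
    rw [hD, ← mul_pow, mul_assoc]
    refine Nat.pow_le_pow_left (Nat.mul_le_mul_left _ ?_) _
    have h2 : H + mc + 1 ≤ (H + mc + 1) * (Nat.log 2 t + 1) := Nat.le_mul_of_pos_right _ (by omega)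
    rw [hm, show (H + mc + 2) * (Nat.log 2 t + 1) =
      (H + mc + 1) * (Nat.log 2 t + 1) + (Nat.log 2 t + 1) by ring]
    omega
  have hdiv : Y / R ≤ c₀ + P := Nat.div_le_of_le_mul hYle
  omega

end FA.Feldman

end
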